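/-
S35 (helper90), abstract clause (T9) of the pseudo-trace: "a killed square".

Setting of `S30/H86/TraceLimit` (`G` acting on `J`, levels `Bs n`, Hecke pairs `(T i, Tgen i)`
generating `Rr T Tgen ⊆ End J × TT`, Abel-Jacobi maps `AJ n` with the saturation property,
integer lifts `e n` of the cyclotomic character, `t` with `TraceSpec`).

If `σ : G` has `e n σ ≡ d` for all `n`, and an element `r = (r₁, r₂)` of `Rr` satisfies
`p ^ a • (B (B (r₁ x)) - (d + 1) ^ 2 • r₁ x) = 0` on all `Bs n`, where `B y = σ • y + d • σ⁻¹ • y`,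
then `p ^ a * χ r₂ * (t σ ^ 2 - (d + 1) ^ 2) = 0`.

(With `d = q` and `σ` a Frobenius lift at `q ∥ M`: `B² - (q+1)² = σ⁻² (σ² - 1)(σ² - q²)`, which
kills the `q`-new part of `J₀(M)[p^∞]`; `r₁` = a Hecke operator projecting to the `q`-new part.)

Mathlib + `S30/H86` only.
-/
import Mathlib
import Fermat.Agent.S30.H86.TraceCor

set_option autoImplicit false

namespace Fermat.Agent.S35.H90

open Fermat.Agent.S30.H86

variable {G : Type*} [Group G] {J : Type*} [AddCommGroup J] [DistribMulAction G J]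
variable {TT : Type*} [CommRing TT] {ι : Type*}
variable {Bs : ℕ → AddSubgroup J} {T : ι → AddMonoid.End J} {Tgen : ι → TT} {e : ℕ → G → ℤ}
variable {O : Type*} [CommRing O] {I : Ideal O} {χ : TT →+* O} {c : ℕ} {t : G → O}

/-- The operator `σ + d σ⁻¹` on `J`. -/
def Bop (σ : G) (d : ℤ) (y : J) : J := σ • y + d • σ⁻¹ • y

theorem Bop_mem (hBG : ∀ n (g : G) (x : J), x ∈ Bs n → g • x ∈ Bs n) (n : ℕ) (σ : G) (d : ℤ)
    {x : J} (hx : x ∈ Bs n) : Bop σ d x ∈ Bs n :=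
  (Bs n).add_mem (hBG n σ x hx) ((Bs n).zsmul_mem (hBG n σ⁻¹ x hx) _)

/-- Elements of `Rr` commute with `Bop`. -/
theorem Rr_Bop (hGH : ∀ i (g : G) (x : J), T i (g • x) = g • T i x)
    {r : AddMonoid.End J × TT} (hr : r ∈ Rr T Tgen) (σ : G) (d : ℤ) (x : J) :
    r.1 (Bop σ d x) = Bop σ d (r.1 x) := by
  unfold Bop
  rw [map_add, map_zsmul, Rr_comm hGH hr σ x, Rr_comm hGH hr σ⁻¹ x]

/-- **(T9)** the killed square. -/
theorem sq_eq_of_kill {L : Type*} [AddCommGroup L] [IsHausdorff I O]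
    (ht : TraceSpec I χ c Bs T Tgen e t) (p : ℕ) (hpI : (p : O) ∈ I)
    (θ : TT →+* AddMonoid.End L)
    (har : ∀ (n : ℕ) (τ : TT), (∀ x : L, ∃ y : L, θ τ x = (p ^ n) • y) →
      ∃ s : TT, τ = (p : TT) ^ (n - c) * s)
    (hBG : ∀ n (g : G) (x : J), x ∈ Bs n → g • x ∈ Bs n)
    (hpB : ∀ n (x : J), x ∈ Bs n → (p ^ n) • x = 0)
    (AJ : ℕ → L →+ J) (hAJB : ∀ n x, AJ n x ∈ Bs n)
    (hker : ∀ n x, AJ n x = 0 → ∃ y : L, x = (p ^ n) • y)
    (hint : ∀ n i x, T i (AJ n x) = AJ n (θ (Tgen i) x))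
    (hGH : ∀ i (g : G) (x : J), T i (g • x) = g • T i x)
    (hex : ∀ n g, ∃ τ : TT, Rel Bs T Tgen e n g τ)
    (σ : G) (d : ℤ) (hd : ∀ n, ((p : ℤ) ^ n) ∣ e n σ - d)
    (r : AddMonoid.End J × TT) (hr : r ∈ Rr T Tgen) (a : ℕ)
    (hkill : ∀ n, ∀ x ∈ Bs n,
      (p ^ a) • (Bop σ d (Bop σ d (r.1 x)) - ((d + 1) ^ 2) • r.1 x) = 0) :
    (p : O) ^ a * χ r.2 * (t σ ^ 2 - ((d : O) + 1) ^ 2) = 0 := by
  refine eq_zero_of_forall_mem_pow I c fun n => ?_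
  obtain ⟨τ, aσ, haσ, hax⟩ := hex n σ
  -- on `Bs n`, `aσ` is `Bop σ d`
  have hB : ∀ x ∈ Bs n, aσ x = Bop σ d x := by
    intro x hx
    rw [← hax x hx]
    have h2 : e n σ • σ⁻¹ • x = d • σ⁻¹ • x :=
      zsmul_eq_of_dvd (hpB n _ (hBG n σ⁻¹ x hx)) (hd n)
    change σ • x + e n σ • σ⁻¹ • x = σ • x + d • σ⁻¹ • x
    rw [h2]
  -- the element of `Rr`
  let s : AddMonoid.End J × TT := (aσ, τ) * (aσ, τ) - (((d + 1) ^ 2 : ℤ) : AddMonoid.End J × TT)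
  have hs : s ∈ Rr T Tgen := sub_mem (mul_mem haσ haσ) (intCast_mem _ _)
  let ρ : AddMonoid.End J × TT := ((p ^ a : ℕ) : AddMonoid.End J × TT) * (r * s)
  have hρ : ρ ∈ Rr T Tgen := mul_mem (natCast_mem _ _) (mul_mem hr hs)
  have hs1 : ∀ x : J, s.1 x = aσ (aσ x) - ((d + 1) ^ 2) • x := by
    intro x
    refine (show _ = (aσ * aσ) x - (((d + 1) ^ 2 : ℤ) : AddMonoid.End J) x from rfl).trans ?_
    rw [AddMonoid.End.intCast_apply]
    rfl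
  have hρ1 : ∀ x : J, ρ.1 x = (p ^ a) • r.1 (s.1 x) := by
    intro x
    refine (show _ = ((p ^ a : ℕ) : AddMonoid.End J) (r.1 (s.1 x)) from rfl).trans ?_
    rw [AddMonoid.End.natCast_apply]
  have hzero : ∀ x ∈ Bs n, ρ.1 x = (0 : AddMonoid.End J × TT).1 x := by
    intro x hx
    rw [hρ1, hs1, hB x hx, hB _ (Bop_mem hBG n σ d hx), map_sub, map_zsmul,
      Rr_Bop hGH hr, Rr_Bop hGH hr]
    exact hkill n x hx
  obtain ⟨u, hu⟩ := Rr_key θ p c n (har n) (Bs n) (AJ n) (hAJB n) (hker n) (hint n) hρ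
    (zero_mem (Rr T Tgen)) hzero
  have hρ2 : ρ.2 = (p : TT) ^ a * (r.2 * (τ * τ - ((d + 1) ^ 2 : ℤ))) := by
    change ((p ^ a : ℕ) : TT) * (r.2 * (τ * τ - (((d + 1) ^ 2 : ℤ) : TT))) = _
    push_cast
    ring
  have h1 : χ ρ.2 - χ 0 ∈ I ^ (n - c) := chi_sub_mem I χ p hpI hu
  rw [map_zero, sub_zero, hρ2] at h1
  have h2 : t σ - χ τ ∈ I ^ (n - c) := ht.1 n σ τ ⟨aσ, haσ, hax⟩
  have h3 : (p : O) ^ a * χ r.2 * (t σ ^ 2 - ((d : O) + 1) ^ 2)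
      = χ ((p : TT) ^ a * (r.2 * (τ * τ - ((d + 1) ^ 2 : ℤ))))
        + (p : O) ^ a * χ r.2 * (t σ + χ τ) * (t σ - χ τ) := by
    simp only [map_mul, map_pow, map_natCast, map_sub, map_intCast]
    push_cast
    ring
  rw [h3]
  exact add_mem h1 (Ideal.mul_mem_left _ _ h2)

end Fermat.Agent.S35.H90
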