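/-
S35 (helper90), (TR35-INST): the pseudo-trace of a Hecke character with the two extra clauses
needed at the primes `q ∥ M` (copy of helper95's `S30/H95/Inst.lean` — same construction, same
leaves — keeping two more facts of helper86's `TraceSpec`):

* (t9)  `t σ ^ 2 - t (σ ^ 2) = 2 q` for EVERY Frobenius lift `σ` at a prime `q ≠ p` (bad primes
        included): the determinant is the cyclotomic character;
* (t10) the killed square (`KillAbs.lean`): if `r = (r₁, r₂)` lies in the ring generated by the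
        Hecke pairs `(T_ℓ on J₀(N), T_ℓ ∈ 𝕋)`, `ℓ ∤ N`, `ℓ ∉ S`, and
        `p ^ a • ((σ + q σ⁻¹)² - (q + 1)²) (r₁ x) = 0` for all `x ∈ J₀(N)[p^∞]`, then
        `p ^ a * χ r₂ * (t σ ^ 2 - (q + 1) ^ 2) = 0`.
-/
import Mathlib
import Fermat.Prelude.Def_CuspForm_HeckeGaloisRepDatum
import Fermat.Prelude.Def_GaloisRep_ComplexConjugation
import Fermat.Agent.S31.H34.Leaves
import Fermat.Agent.S31.H76.CycLeaf
import Fermat.Agent.S29.H69.FrobCosetPos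
import Fermat.Agent.S41.H40.Lattice
import Fermat.Agent.S29.H60.GaloisHecke
import Fermat.Agent.S30.H86.TraceCor
import Fermat.Agent.S30.H95.Inst
import Fermat.Agent.S35.H90.KillAbs

set_option autoImplicit false

open CongruenceSubgroup ModularCurve ModularCurve.Period CuspForm
open Fermat.Agent.S16.H75 (heckeHom)
open Fermat.Agent.S31.H34 (Lat AJLeaf ESLeaf StableLeaf HALeaf)
open Fermat.Agent.S31.H76 (cycloInt cycloInt_one cycloInt_mul cycloInt_of_isFrobeniusAt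
  cycloInt_of_mem_inertia cycloInt_complexConjugation exists_finite_level_cycloInt)
open Fermat.Agent.S30.H86 (exists_pseudoTrace hEX_of_frobenius TraceSpec Rr)
open Fermat.Agent.S30.H95 (exists_level_le)

namespace Fermat.Agent.S35.H90

local notation "Qb" => AlgebraicClosure ℚ
local notation "Γ" => (AlgebraicClosure ℚ ≃ₐ[ℚ] AlgebraicClosure ℚ)

/-- The good primes of level `N` outside `S`. -/
abbrev GoodIdx (N : ℕ) (S : Finset ℕ) : Type :=
  {ℓ : ℕ // ℓ.Prime ∧ ¬ ℓ ∣ N ∧ ℓ ∉ (↑S : Set ℕ)}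

/-- The Hecke operator `T_ℓ` on `J₀(N)(ℚ̄)`, `ℓ` a good prime. -/
noncomputable def TJ (N : ℕ) [NeZero N] (S : Finset ℕ) (i : GoodIdx N S) : AddMonoid.End (JZero N) :=
  (heckeOperatorBar N ⟨i.1, i.2.1⟩).toAddMonoidHom

/-- The Hecke operator `T_ℓ` in the Hecke algebra, `ℓ` a good prime. -/
noncomputable def TH (N : ℕ) [NeZero N] (S : Finset ℕ) (i : GoodIdx N S) :
    CuspForm.heckeAlgebra N 2 (↑S : Set ℕ) :=
  CuspForm.heckeAlgebra.T i.2.1 i.2.2.1 i.2.2.2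

/-- **(TR35)**: the pseudo-trace attached to a Hecke character `χ`, with the clauses (t1)–(t8)
of `S30.H95.TRStatement` and the two clauses (t9), (t10) at arbitrary primes `q ≠ p`. -/
def TR35Statement (p N : ℕ) [NeZero N] (S : Finset ℕ) (R : Type) [CommRing R] [IsLocalRing R]
    (χ : CuspForm.heckeAlgebra N 2 (↑S : Set ℕ) →+* R) : Prop :=
  ∃ t : Γ → R,
    t 1 = 2 ∧
    (∀ g h : Γ, t (g * h) = t (h * g)) ∧
    (∀ g h : Γ, 2 * t (g * h) + (t h ^ 2 - t (h ^ 2)) * t (g * h⁻¹) = 2 * (t g * t h)) ∧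
    (∀ g h : Γ, 2 * (t (g * h) ^ 2 - t ((g * h) ^ 2)) =
      (t g ^ 2 - t (g ^ 2)) * (t h ^ 2 - t (h ^ 2))) ∧
    t complexConjugation = 0 ∧
    (∀ (ℓ : ℕ) (hℓ : ℓ.Prime) (hℓN : ¬ ℓ ∣ N) (hℓS : ℓ ∉ (↑S : Set ℕ)),
      ∀ A : ValuationSubring (AlgebraicClosure ℚ), A.LiesOverPrime ℓ →
        ∀ σ : Γ, A.IsFrobeniusAt σ ℓ →
          t σ = χ (CuspForm.heckeAlgebra.T hℓ hℓN hℓS) ∧ t σ ^ 2 - t (σ ^ 2) = 2 * (ℓ : R)) ∧
    (∀ q : ℕ, q.Prime → ¬ q ∣ N → q ≠ p →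
      ∀ A : ValuationSubring (AlgebraicClosure ℚ), A.LiesOverPrime q →
        ∀ σ ∈ A.inertiaSubgroupIn ℚ, ∀ g : Γ, t (σ * g) = t g) ∧
    (∀ n : ℕ, ∃ L : IntermediateField ℚ (AlgebraicClosure ℚ), FiniteDimensional ℚ L ∧
      ∀ σ : Γ, (∀ x ∈ L, σ x = x) → ∀ g : Γ, t (σ * g) - t g ∈ IsLocalRing.maximalIdeal R ^ n) ∧
    (∀ q : ℕ, q.Prime → q ≠ p →
      ∀ A : ValuationSubring (AlgebraicClosure ℚ), A.LiesOverPrime q →
        ∀ σ : Γ, A.IsFrobeniusAt σ q → t σ ^ 2 - t (σ ^ 2) = 2 * (q : R)) ∧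
    (∀ q : ℕ, q.Prime → q ≠ p →
      ∀ A : ValuationSubring (AlgebraicClosure ℚ), A.LiesOverPrime q →
        ∀ σ : Γ, A.IsFrobeniusAt σ q →
          ∀ r ∈ Rr (TJ N S) (TH N S), ∀ a : ℕ,
            (∀ (n : ℕ) (x : JZero N), (p ^ n) • x = 0 →
              (p ^ a) • (Bop σ ((q : ℕ) : ℤ) (Bop σ ((q : ℕ) : ℤ) (r.1 x))
                - ((((q : ℕ) : ℤ) + 1) ^ 2) • r.1 x) = 0) →
            (p : R) ^ a * χ r.2 * (t σ ^ 2 - ((q : R) + 1) ^ 2) = 0)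

variable {p N : ℕ} [NeZero N] {S : Finset ℕ}

/-- **(TR35-INST)**: the extended pseudo-trace of a Hecke character, from the leaves of S31. -/
theorem tr35_of_leaves {R : Type} [CommRing R] [IsLocalRing R]
    [IsAdicComplete (IsLocalRing.maximalIdeal R) R]
    (χ : CuspForm.heckeAlgebra N 2 (↑S : Set ℕ) →+* R)
    (hAJ : AJLeaf N p) (hES : ESLeaf N p) (hSt : StableLeaf N p) (hHA : HALeaf N p S)
    (hp : p.Prime) (hpR : (p : R) ∈ IsLocalRing.maximalIdeal R) (hpS : p ∈ S) :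
    TR35Statement p N S R χ := by
  classical
  haveI : Fact p.Prime := ⟨hp⟩
  -- the Hecke action on the lattice and its saturation exponent
  obtain ⟨Φ, c, hΦT, hsat⟩ := hHA
  let θ : CuspForm.heckeAlgebra N 2 (↑S : Set ℕ) →+* AddMonoid.End (Lat N) :=
    ((addMonoidEndRingEquivInt (Lat N)).symm : Module.End ℤ (Lat N) →+* AddMonoid.End (Lat N)).comp Φ
  have hθ : ∀ (τ : CuspForm.heckeAlgebra N 2 (↑S : Set ℕ)) (x : Lat N), θ τ x = Φ τ x :=
    fun _ _ => rfl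
  have har : ∀ (n : ℕ) (τ : CuspForm.heckeAlgebra N 2 (↑S : Set ℕ)),
      (∀ x : Lat N, ∃ y : Lat N, θ τ x = (p ^ n) • y) →
      ∃ s : CuspForm.heckeAlgebra N 2 (↑S : Set ℕ), τ = (p : CuspForm.heckeAlgebra N 2 (↑S : Set ℕ)) ^ (n - c) * s := by
    intro n τ h
    rcases Nat.lt_or_ge n c with hlt | hge
    · exact ⟨τ, by rw [Nat.sub_eq_zero_of_le hlt.le, pow_zero, one_mul]⟩
    · obtain ⟨f', hf'⟩ := hsat (n - c) τ (fun ψ => by
        obtain ⟨y, hy⟩ := h ψ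
        exact ⟨y, by rw [← hθ, hy, Nat.sub_add_cancel hge]⟩)
      exact ⟨f', by rw [hf', nsmul_eq_mul, Nat.cast_pow]⟩
  -- the Abel–Jacobi maps and the level groups
  choose AJ hAJker hAJT using hAJ
  have hfin : Module.Finite ℤ (Lat N) := Fermat.Agent.S41.H40.finite_parabolicHoms_int N
  have hfg : ∀ n, ((AJ n).range).FG := by
    intro n
    have h1 : AddGroup.FG (Lat N) := Module.Finite.iff_addGroup_fg.1 hfin
    exact (AddGroup.fg_iff_addSubgroup_fg _).1 (AddGroup.fg_range (AJ n))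
  have hAJp : ∀ n, ∀ x ∈ (AJ n).range, p ^ n • x = 0 := by
    rintro n _ ⟨ψ, rfl⟩
    rw [← map_nsmul]
    exact (hAJker n _).2 ⟨ψ, rfl⟩
  choose Bs E hEfd hMZ hpB hBG hBT hBE using fun n => hSt n (AJ n).range (hfg n) (hAJp n)
  have hBG' : ∀ n (g : Γ) (x : JZero N), x ∈ Bs n → g • x ∈ Bs n := fun n g x hx => hBG n g x hx
  have hpB' : ∀ n (x : JZero N), x ∈ Bs n → (p ^ n) • x = 0 := fun n x hx => hpB n x hx
  have hAJB : ∀ n x, AJ n x ∈ Bs n := fun n x => hMZ n ⟨x, rfl⟩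
  have hker : ∀ n x, AJ n x = 0 → ∃ y : Lat N, x = (p ^ n) • y := fun n x h => (hAJker n x).1 h
  -- the Hecke generators
  let ι : Type := GoodIdx N S
  let T : ι → AddMonoid.End (JZero N) := TJ N S
  let Tgen : ι → CuspForm.heckeAlgebra N 2 (↑S : Set ℕ) := TH N S
  have hT : ∀ (i : ι) (x : JZero N), T i x = heckeOperatorBar N ⟨i.1, i.2.1⟩ x := fun _ _ => rfl
  have hint : ∀ n i x, T i (AJ n x) = AJ n (θ (Tgen i) x) := by
    intro n i x
    rw [hT]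
    exact hAJT n ⟨i.1, i.2.1⟩ i.2.2.1 x (θ (Tgen i) x) (hΦT i.1 i.2.1 i.2.2.1 i.2.2.2 x)
  have hGH : ∀ i (g : Γ) (x : JZero N), T i (g • x) = g • T i x := by
    intro i g x
    rw [hT, hT]
    exact (Fermat.Agent.S29.H60.galois_smul_heckeOperatorBar N ⟨i.1, i.2.1⟩ g x).symm
  -- the cyclotomic lifts
  let e : ℕ → Γ → ℤ := fun n g => cycloInt p n g
  have he1 : ∀ n, ((p : ℤ) ^ n) ∣ e n 1 - 1 := fun n => cycloInt_one p n
  have hemul : ∀ n g h, ((p : ℤ) ^ n) ∣ e n (g * h) - e n g * e n h :=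
    fun n g h => cycloInt_mul p n g h
  -- facts about good primes
  have hgood : ∀ ℓ : ℕ, ℓ.Prime → ℓ ∉ (↑S : Set ℕ) → ℓ ≠ p := by
    rintro ℓ - hℓS rfl
    exact hℓS (Finset.mem_coe.mpr hpS)
  have hndvd : ∀ ℓ : ℕ, ℓ.Prime → ¬ ℓ ∣ N → ℓ ≠ p → ¬ ℓ ∣ N * p := by
    intro ℓ hℓ hℓN hℓp h
    rcases (Nat.Prime.dvd_mul hℓ).1 h with h1 | h1
    · exact hℓN h1
    · exact hℓp ((Nat.prime_dvd_prime_iff_eq hℓ hp).1 h1)
  -- the Eichler–Shimura relation on the level groups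
  have hquad : ∀ (i : ι) (A : ValuationSubring Qb), A.LiesOverPrime i.1 → ∀ σ : Γ,
      A.IsFrobeniusAt σ i.1 → ∀ n, ∀ x ∈ Bs n,
        σ • σ • x - T i (σ • x) + ((i.1 : ℕ) : ℤ) • x = 0 := by
    intro i A hA σ hσ n x hx
    have h1 := (hES i.1 i.2.1 (hndvd i.1 i.2.1 i.2.2.1 (hgood i.1 i.2.1 i.2.2.2)) A hA x
      ⟨n, hpB n x hx⟩).2 σ hσ
    rw [hT, natCast_zsmul]
    exact h1
  have hefrob : ∀ (i : ι) (A : ValuationSubring Qb), A.LiesOverPrime i.1 → ∀ σ : Γ,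
      A.IsFrobeniusAt σ i.1 → ∀ n, ((p : ℤ) ^ n) ∣ e n σ - ((i.1 : ℕ) : ℤ) :=
    fun i A hA σ hσ n => cycloInt_of_isFrobeniusAt p n i.2.1 (hgood i.1 i.2.1 i.2.2.2) hA hσ
  -- the common finite level
  have hlevel : ∀ n, ∃ F : IntermediateField ℚ Qb, FiniteDimensional ℚ F ∧
      ∀ σ : Γ, (∀ a ∈ F, σ a = a) → ∀ k ≤ n,
        (∀ x ∈ Bs k, σ • x = x) ∧ ((p : ℤ) ^ k ∣ e k σ - 1) := by
    intro n
    refine exists_level_le (fun k σ => (∀ x ∈ Bs k, σ • x = x) ∧ ((p : ℤ) ^ k ∣ e k σ - 1))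
      (fun k => ?_) n
    obtain ⟨E', hE', hE'e⟩ := exists_finite_level_cycloInt p k
    refine ⟨E k ⊔ E', IntermediateField.finiteDimensional_sup (E k) E', fun σ hσ => ⟨?_, ?_⟩⟩
    · exact hBE k σ (fun a ha => hσ a ((le_sup_left : E k ≤ E k ⊔ E') ha))
    · exact (hE'e σ (fun a ha => hσ a ((le_sup_right : E' ≤ E k ⊔ E') ha))).1
  -- Frobenius density
  have hdens : ∀ (n : ℕ) (g : Γ), ∃ (i : ι) (ℓ : ℤ) (σ : Γ) (m : ℕ),
      (∀ k ≤ n, ∀ x ∈ Bs k, σ • σ • x - T i (σ • x) + ℓ • x = 0) ∧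
      (∀ k ≤ n, ((p : ℤ) ^ k) ∣ e k σ - ℓ) ∧
      (∀ k ≤ n, ∀ x ∈ Bs k, g • x = σ ^ m • x) ∧
      (∀ k ≤ n, ((p : ℤ) ^ k) ∣ e k (σ ^ m) - e k g) := by
    intro n g
    obtain ⟨F, hFfd, hF⟩ := hlevel n
    obtain ⟨ℓ, A, h, m, hℓ, hBℓ, hA, hh, -, hm, -⟩ :=
      Fermat.Agent.S29.H69.exists_frobenius_pos_pow_mem_fixingSubgroup F g (N + S.sup id)
    have hℓN : ¬ ℓ ∣ N := fun hdvd =>
      absurd (Nat.le_of_dvd (Nat.pos_of_ne_zero (NeZero.ne N)) hdvd) (by omega)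
    have hℓS : ℓ ∉ (↑S : Set ℕ) := fun hmem => by
      have : ℓ ≤ S.sup id := Finset.le_sup (f := id) (Finset.mem_coe.mp hmem)
      omega
    have hfix : ∀ a ∈ F, (g⁻¹ * h ^ m) a = a := fun a ha =>
      (IntermediateField.mem_fixingSubgroup_iff F (g⁻¹ * h ^ m)).1 hm a ha
    refine ⟨⟨ℓ, hℓ, hℓN, hℓS⟩, (ℓ : ℤ), h, m, fun k _ x hx => ?_, fun k _ => ?_,
      fun k hk x hx => ?_, fun k hk => ?_⟩
    · exact hquad ⟨ℓ, hℓ, hℓN, hℓS⟩ A hA h hh k x hx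
    · exact hefrob ⟨ℓ, hℓ, hℓN, hℓS⟩ A hA h hh k
    · have h1 := (hF _ hfix k hk).1 x hx
      rw [mul_smul] at h1
      have h2 := congrArg (fun y => g • y) h1
      simpa using h2.symm
    · have h1 := (hF _ hfix k hk).2
      have h2 := hemul k g (g⁻¹ * h ^ m)
      rw [mul_inv_cancel_left] at h2
      have h3 : e k (h ^ m) - e k g =
          (e k (h ^ m) - e k g * e k (g⁻¹ * h ^ m)) + e k g * (e k (g⁻¹ * h ^ m) - 1) := by ring
      rw [h3]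
      exact dvd_add h2 (Dvd.dvd.mul_left h1 _)
  have hEX := hEX_of_frobenius (Bs := Bs) (T := T) (Tgen := Tgen) (e := e) p hBG' hpB' he1 hemul
    hdens
  -- the pseudo-trace
  obtain ⟨t, ht⟩ := exists_pseudoTrace (IsLocalRing.maximalIdeal R) χ p c hpR θ har Bs hBG' hpB'
    AJ hAJB hker T Tgen hint hGH e he1 hemul hEX
  have ht' := ht
  obtain ⟨-, h1, h2, h3, h4, heps, -, -, -, -⟩ := ht'
  have hex : ∀ n g, ∃ τ : CuspForm.heckeAlgebra N 2 (↑S : Set ℕ),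
      Fermat.Agent.S30.H86.Rel Bs T Tgen e n g τ := fun n g => by
    obtain ⟨τ, hτ⟩ := hEX n g
    exact ⟨τ, hτ n le_rfl⟩
  refine ⟨t, h1, h2, h3, h4, ?_, ?_, ?_, ?_, ?_, ?_⟩
  · -- (t5) complex conjugation
    exact ht.eq_zero_of_involution p hBG' hpB' complexConjugation complexConjugation_mul_self
      (fun n => cycloInt_complexConjugation p n)
  · -- (t6) Frobenius elements
    intro ℓ hℓ hℓN hℓS A hA σ hσ
    have h6 := ht.eq_of_quadratic p hpR hBG' hpB' σ (⟨ℓ, hℓ, hℓN, hℓS⟩ : ι) (ℓ : ℤ)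
      (fun n x hx => hquad ⟨ℓ, hℓ, hℓN, hℓS⟩ A hA σ hσ n x hx)
      (fun n => hefrob ⟨ℓ, hℓ, hℓN, hℓS⟩ A hA σ hσ n)
    rw [Int.cast_natCast] at h6
    exact h6
  · -- (t7) inertia
    intro q hq hqN hqp A hA σ hσ g
    refine ht.mul_left_eq p hBG' hpB' hemul σ (fun n x hx => ?_)
      (fun n => cycloInt_of_mem_inertia p n hq hqp hA hσ) g
    exact (hES q hq (hndvd q hq hqN hqp) A hA x ⟨n, hpB n x hx⟩).1 σ hσ
  · -- (t8) continuity
    intro n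
    obtain ⟨E', hE', hE'e⟩ := exists_finite_level_cycloInt p (n + c)
    refine ⟨E (n + c) ⊔ E', IntermediateField.finiteDimensional_sup (E (n + c)) E',
      fun σ hσ g => ?_⟩
    refine ht.mul_left_sub_mem p hBG' hpB' hemul n σ ?_ ?_ g
    · exact hBE (n + c) σ (fun a ha => hσ a ((le_sup_left : E (n + c) ≤ E (n + c) ⊔ E') ha))
    · exact (hE'e σ (fun a ha => hσ a ((le_sup_right : E' ≤ E (n + c) ⊔ E') ha))).1
  · -- (t9) the determinant at every Frobenius lift away from `p`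
    intro q hq hqp A hA σ hσ
    have hd : ∀ n, ((p : ℤ) ^ n) ∣ e n σ - ((q : ℕ) : ℤ) :=
      fun n => cycloInt_of_isFrobeniusAt p n hq hqp hA hσ
    have h0 : t σ ^ 2 - t (σ ^ 2) - 2 * (q : R) = 0 :=
      Fermat.Agent.S30.H86.eq_zero_of_forall_mem_pow (IsLocalRing.maximalIdeal R) c fun n => by
        have e1 := heps n σ
        have e2 : ((e n σ : R) - (q : R)) ∈ IsLocalRing.maximalIdeal R ^ (n - c) := by
          obtain ⟨k, hk⟩ := hd n
          have e3 : ((e n σ : R) - (q : R)) = ((p : R) ^ n) * (k : R) := by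
            have := congrArg (Int.cast : ℤ → R) hk
            push_cast at this
            exact this
          rw [e3]
          exact Ideal.mul_mem_right _ _
            (Ideal.pow_le_pow_right (Nat.sub_le n c) (Ideal.pow_mem_pow hpR n))
        have e4 : t σ ^ 2 - t (σ ^ 2) - 2 * (q : R)
            = (t σ ^ 2 - t (σ ^ 2) - 2 * (e n σ : R)) + 2 * ((e n σ : R) - (q : R)) := by ring
        rw [e4]
        exact add_mem e1 (Ideal.mul_mem_left _ _ e2)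
    exact sub_eq_zero.mp h0
  · -- (t10) the killed square
    intro q hq hqp A hA σ hσ r hr a hkill
    have hd : ∀ n, ((p : ℤ) ^ n) ∣ e n σ - ((q : ℕ) : ℤ) :=
      fun n => cycloInt_of_isFrobeniusAt p n hq hqp hA hσ
    have h0 := sq_eq_of_kill ht p hpR θ har hBG' hpB' AJ hAJB hker hint hGH hex σ ((q : ℕ) : ℤ) hd
      r hr a (fun n x hx => hkill n x (hpB' n x hx))
    rw [Int.cast_natCast] at h0
    exact h0

end Fermat.Agent.S35.H90
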