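/-
S35 (helper90), TOP: the conclusion of the frozen S35 from ONE hypothesis per prime `q ∥ M`,
`q ≠ λ`: `KeyStatement λ M S χ q` — "a Hecke operator `r₁` (first component of an element
`r = (r₁, r₂)` of the ring generated by the pairs `(T_ℓ on J₀(M), T_ℓ ∈ 𝕋)`, `ℓ ∤ M`, `ℓ ∉ S`)
with `χ r₂ ≠ 0` such that, for every Frobenius lift `σ` at `q`,
`λ ^ a • ((σ + q σ⁻¹)² - (q + 1)²)` kills `r₁ (J₀(M)[λ^∞])`".

`KeyStatement` is the conjunction of the geometric statement (B2new) "`(σ² - 1)(σ² - q²)` kills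
the `q`-new part of `J₀(M)[λ^n]` up to a bounded exponent" (note `(σ + qσ⁻¹)² - (q+1)² =
σ⁻²(σ² - 1)(σ² - q²)`) and the algebraic statement (NEWPROJ) "some `r` with `χ r₂ ≠ 0` maps
`J₀(M)[λ^n]` into the `q`-new part up to a bounded exponent" (report 2650).

Proof of the top: the pseudo-trace `t` of `χ = ι ∘ χ_g` (`Inst.lean`, same leaves as S30) has
`t σ ^ 2 - t (σ ^ 2) = 2 q` (t9) and `λ ^ a * χ r₂ * (t σ ^ 2 - (q + 1) ^ 2) = 0` (t10), so
`t σ = ± (q + 1)` in the domain `O'`; (RHO) (`S30/H90/Rho.lean`) turns `t` into `ρ` with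
`charpoly (ρ σ) = X² - t σ X + q`.  `O'' := O'`.
-/
import Fermat.Statements.S35
import Fermat.Agent.S30.H90.Rho
import Fermat.Agent.S30.H95.Leaves
import Fermat.Agent.S37.H77.CoreFree
import Fermat.Agent.S31.H94.Stable
import Fermat.Agent.S31.H75.HALeaf
import Fermat.Agent.S35.H90.Inst

set_option autoImplicit false
open Polynomial
open CuspForm
open ModularCurve

namespace Fermat.Agent.S35.H90

open Fermat.Agent.S30.H86 (Rr)

local notation "Γ" => (AlgebraicClosure ℚ ≃ₐ[ℚ] AlgebraicClosure ℚ)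

/-- **The key statement at a prime `q`** (consumed by the top for `q ∥ M`, `q ≠ p`). -/
def KeyStatement (p M : ℕ) [NeZero M] (S : Finset ℕ) {R : Type} [CommRing R]
    (χ : CuspForm.heckeAlgebra M 2 (↑S : Set ℕ) →+* R) (q : ℕ) : Prop :=
  ∃ r ∈ Rr (TJ M S) (TH M S), ∃ a : ℕ, χ r.2 ≠ 0 ∧
    ∀ A : ValuationSubring (AlgebraicClosure ℚ), A.LiesOverPrime q →
      ∀ σ : Γ, A.IsFrobeniusAt σ q →
        ∀ (n : ℕ) (x : JZero M), (p ^ n) • x = 0 →
          (p ^ a) • (Bop σ ((q : ℕ) : ℤ) (Bop σ ((q : ℕ) : ℤ) (r.1 x))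
            - ((((q : ℕ) : ℤ) + 1) ^ 2) • r.1 x) = 0

/-- **S35 from the key statement** (the conclusion is verbatim that of the frozen S35). -/
theorem s35_of_key
    {M : ℕ} [NeZero M]
    (lam : ℕ) [Fact lam.Prime]
    (S : Finset ℕ)
    (O' : Type) [CommRing O'] [IsDomain O'] [IsDiscreteValuationRing O']
    [IsAdicComplete (IsLocalRing.maximalIdeal O') O'] [Finite (IsLocalRing.ResidueField O')]
    [CharZero O'] (hlamO' : (lam : O') ∈ IsLocalRing.maximalIdeal O')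
    (chig : CuspForm.heckeAlgebra M 2 (↑S : Set ℕ) →+* ℂ)
    (iota : chig.range →+* O')
    (hlamS : lam ∈ S)
    (hKey : ∀ q : ℕ, q.Prime → q ≠ lam → q ∣ M → ¬ q ^ 2 ∣ M →
      KeyStatement lam M S (iota.comp chig.rangeRestrict) q) :
    ∃ (O'' : Type) (_ : CommRing O'') (_ : IsDomain O'') (_ : IsDiscreteValuationRing O'')
      (_ : IsAdicComplete (IsLocalRing.maximalIdeal O'') O'') (_ : Finite (IsLocalRing.ResidueField O''))
      (_ : CharZero O'') (_ : Algebra O' O'') (_ : Module.Finite O' O'') (_ : IsLocalHom (algebraMap O' O'')),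
      Function.Injective (algebraMap O' O'') ∧
      ∃ ρ : GaloisRepAdic O'',
        (∀ (ℓ : ℕ) (hℓ : ℓ.Prime) (hℓM : ¬ ℓ ∣ M) (hℓS : ℓ ∉ (↑S : Set ℕ)),
          ∀ A : ValuationSubring (AlgebraicClosure ℚ), A.LiesOverPrime ℓ →
            ∀ σ : AlgebraicClosure ℚ ≃ₐ[ℚ] AlgebraicClosure ℚ, A.IsFrobeniusAt σ ℓ →
              LinearMap.charpoly (ρ.ρ σ) =
                X ^ 2 - C (algebraMap O' O'' ((iota.comp chig.rangeRestrict) (CuspForm.heckeAlgebra.T hℓ hℓM hℓS))) * X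
                  + C ((ℓ : O''))) ∧
        (∀ q : ℕ, q.Prime → q ≠ lam → q ∣ M → ¬ q ^ 2 ∣ M →
          ∀ A : ValuationSubring (AlgebraicClosure ℚ), A.LiesOverPrime q →
            ∀ σ : AlgebraicClosure ℚ ≃ₐ[ℚ] AlgebraicClosure ℚ, A.IsFrobeniusAt σ q →
              LinearMap.charpoly (ρ.ρ σ) = X ^ 2 - C ((q : O'') + 1) * X + C ((q : O'')) ∨
              LinearMap.charpoly (ρ.ρ σ) = X ^ 2 + C ((q : O'') + 1) * X + C ((q : O''))) := by
  have hp' : lam.Prime := Fact.out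
  obtain ⟨t, h1, h2, h3, h4, h5, h6, -, h8, h9, h10⟩ :=
    tr35_of_leaves (iota.comp chig.rangeRestrict)
      (Fermat.Agent.S30.H95.ajLeaf_pow M lam hp'.ne_zero)
      (Fermat.Agent.S37.H77.core_free M lam) (Fermat.Agent.S31.H94.stableLeaf M lam)
      (Fermat.Agent.S31.H75.haLeaf M lam hp' S) hp' hlamO' hlamS
  obtain ⟨ρ, hchar, -⟩ :=
    Fermat.Agent.S30.H90.exists_galoisRepAdic_of_pseudoTrace t h1 h2 h3 h4 h5 h8
  refine ⟨O', inferInstance, inferInstance, inferInstance, inferInstance, inferInstance,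
    inferInstance, Algebra.id O', inferInstance, ?_, Function.injective_id, ρ, ?_, ?_⟩
  · rw [Algebra.algebraMap_self]
    exact isLocalHom_id O'
  · intro ℓ hℓ hℓM hℓS A hA σ hσ
    obtain ⟨e1, e2⟩ := h6 ℓ hℓ hℓM hℓS A hA σ hσ
    rw [hchar σ (ℓ : O') e2, e1, Algebra.algebraMap_self, RingHom.id_apply]
  · intro q hq hqlam hqM hq2 A hA σ hσ
    obtain ⟨r, hr, a, hχ, hkill⟩ := hKey q hq hqlam hqM hq2
    have hdet := h9 q hq hqlam A hA σ hσ
    have hsq := h10 q hq hqlam A hA σ hσ r hr a (hkill A hA σ hσ)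
    have hlam0 : (lam : O') ≠ 0 := Nat.cast_ne_zero.mpr hp'.ne_zero
    have hsq' : t σ ^ 2 - ((q : O') + 1) ^ 2 = 0 := by
      rcases mul_eq_zero.mp hsq with h | h
      · rcases mul_eq_zero.mp h with h | h
        · exact absurd (pow_eq_zero_iff (fun h0 : a = 0 => by
            rw [h0, pow_zero] at h; exact one_ne_zero h) |>.mp h) hlam0
        · exact absurd h hχ
      · exact h
    have hfac : (t σ - ((q : O') + 1)) * (t σ + ((q : O') + 1)) = 0 := by
      linear_combination hsq'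
    rcases mul_eq_zero.mp hfac with h | h
    · left
      rw [hchar σ (q : O') hdet, sub_eq_zero.mp h]
    · right
      have e1 : t σ = -((q : O') + 1) := eq_neg_of_add_eq_zero_left h
      rw [hchar σ (q : O') hdet, e1, map_neg, neg_mul, sub_neg_eq_add]

/-- **S35 from the key statement, in the binder shape of the frozen statement.** -/
theorem s35_of_key'
    {M : ℕ} [NeZero M] {g : CuspForm (CongruenceSubgroup.Gamma0 M) 2} (_hg : g.IsNewform)
    (lam : ℕ) [Fact lam.Prime]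
    (S : Finset ℕ)
    (O' : Type) [CommRing O'] [IsDomain O'] [IsDiscreteValuationRing O']
    [IsAdicComplete (IsLocalRing.maximalIdeal O') O'] [Finite (IsLocalRing.ResidueField O')]
    [CharZero O'] (hlamO' : (lam : O') ∈ IsLocalRing.maximalIdeal O')
    (chig : CuspForm.heckeAlgebra M 2 (↑S : Set ℕ) →+* ℂ)
    (_hchig : ∀ (ℓ : ℕ) (hℓ : ℓ.Prime) (hℓM : ¬ ℓ ∣ M) (hℓS : ℓ ∉ (↑S : Set ℕ)),
      chig (CuspForm.heckeAlgebra.T hℓ hℓM hℓS) = ModularFormClass.qCoeff g ℓ)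
    (iota : chig.range →+* O')
    (hlamS : lam ∈ S) (_hMS : ∀ q : ℕ, q.Prime → q ∣ M → q ∈ S)
    (hKey : ∀ q : ℕ, q.Prime → q ≠ lam → q ∣ M → ¬ q ^ 2 ∣ M →
      KeyStatement lam M S (iota.comp chig.rangeRestrict) q) :
    ∃ (O'' : Type) (_ : CommRing O'') (_ : IsDomain O'') (_ : IsDiscreteValuationRing O'')
      (_ : IsAdicComplete (IsLocalRing.maximalIdeal O'') O'') (_ : Finite (IsLocalRing.ResidueField O''))
      (_ : CharZero O'') (_ : Algebra O' O'') (_ : Module.Finite O' O'') (_ : IsLocalHom (algebraMap O' O'')),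
      Function.Injective (algebraMap O' O'') ∧
      ∃ ρ : GaloisRepAdic O'',
        (∀ (ℓ : ℕ) (hℓ : ℓ.Prime) (hℓM : ¬ ℓ ∣ M) (hℓS : ℓ ∉ (↑S : Set ℕ)),
          ∀ A : ValuationSubring (AlgebraicClosure ℚ), A.LiesOverPrime ℓ →
            ∀ σ : AlgebraicClosure ℚ ≃ₐ[ℚ] AlgebraicClosure ℚ, A.IsFrobeniusAt σ ℓ →
              LinearMap.charpoly (ρ.ρ σ) =
                X ^ 2 - C (algebraMap O' O'' ((iota.comp chig.rangeRestrict) (CuspForm.heckeAlgebra.T hℓ hℓM hℓS))) * X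
                  + C ((ℓ : O''))) ∧
        (∀ q : ℕ, q.Prime → q ≠ lam → q ∣ M → ¬ q ^ 2 ∣ M →
          ∀ A : ValuationSubring (AlgebraicClosure ℚ), A.LiesOverPrime q →
            ∀ σ : AlgebraicClosure ℚ ≃ₐ[ℚ] AlgebraicClosure ℚ, A.IsFrobeniusAt σ q →
              LinearMap.charpoly (ρ.ρ σ) = X ^ 2 - C ((q : O'') + 1) * X + C ((q : O'')) ∨
              LinearMap.charpoly (ρ.ρ σ) = X ^ 2 + C ((q : O'') + 1) * X + C ((q : O''))) :=
  s35_of_key lam S O' hlamO' chig iota hlamS hKey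

end Fermat.Agent.S35.H90
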