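/-
S35 (helper90): the GEOMETRIC interface (B2new) and the `q`-new part.

Level `M = N * q` (`q` prime, `q ∤ N` in the application).  `degAlpha N q`, `degBeta N q :
J₀(N q)(ℚ̄) → J₀(N)(ℚ̄)` are helper60's push-forwards `α_*`, `β_*` (`S35/H60/DegDefs.lean`).

* `QNew N q y`              : `α_* y = 0 ∧ β_* y = 0`;
* `B2newStatement N q p`    : there is an exponent `a` such that for every Frobenius lift `σ` at
  `q` and every `q`-new `y ∈ J₀(N q)[p^n]`:  `p ^ a • (σ² - q²)(σ² - 1) y = 0`;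
* `Bop_Bop_sub`             : `(σ + d σ⁻¹)² - (d + 1)² = σ⁻² (σ² - d²)(σ² - 1)` on any `G`-module;
* `B2newStatement.kill`     : the form consumed by the top (`KillAbs.sq_eq_of_kill`).
-/
import Mathlib
import Fermat.Prelude.Def_CuspForm_HeckeGaloisRepDatum
import Fermat.Agent.S29.H60.GaloisHecke
import Fermat.Agent.S35.H60.DegDefs
import Fermat.Agent.S35.H90.KillAbs

set_option autoImplicit false

open ModularCurve

namespace Fermat.Agent.S35.H90

open Fermat.Agent.S35.H60 (degAlpha degBeta)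

local notation "Γ" => (AlgebraicClosure ℚ ≃ₐ[ℚ] AlgebraicClosure ℚ)

section Abstract

variable {G : Type*} [Group G] {J : Type*} [AddCommGroup J] [DistribMulAction G J]

/-- `(σ + d σ⁻¹)² - (d + 1)² = σ⁻² (σ² - d²)(σ² - 1)`. -/
theorem Bop_Bop_sub (σ : G) (d : ℤ) (y : J) :
    Bop σ d (Bop σ d y) - ((d + 1) ^ 2) • y
      = σ⁻¹ • σ⁻¹ • ((σ * σ) • ((σ * σ) • y - y) - (d ^ 2) • ((σ * σ) • y - y)) := by
  unfold Bop
  simp only [smul_add, smul_sub, mul_smul, smul_comm σ d, smul_comm σ⁻¹ d,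
    smul_comm σ⁻¹ (d ^ 2), smul_inv_smul, inv_smul_smul]
  generalize σ • σ • y = a
  generalize σ⁻¹ • σ⁻¹ • y = b
  module

end Abstract

/-- The `q`-new part of `J₀(N q)(ℚ̄)`: the common kernel of the two degeneracy push-forwards. -/
def QNew (N q : ℕ) [NeZero N] [NeZero q] (y : JZero (N * q)) : Prop :=
  degAlpha N q y = 0 ∧ degBeta N q y = 0

/-- **(B2new)** — the geometric input of S35 at a prime `q ∥ N q`: for every Frobenius lift `σ`
at `q`, `(σ² - q²)(σ² - 1)` kills the `q`-new part of `J₀(N q)[p^∞]` up to a bounded exponent.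
(To be proved for `q` prime, `q ∤ N`, `p` prime, `p ≠ q`.) -/
def B2newStatement (N q p : ℕ) [NeZero N] [NeZero q] : Prop :=
  ∃ a : ℕ, ∀ A : ValuationSubring (AlgebraicClosure ℚ), A.LiesOverPrime q →
    ∀ σ : Γ, A.IsFrobeniusAt σ q →
      ∀ (n : ℕ) (y : JZero (N * q)), (p ^ n) • y = 0 → QNew N q y →
        (p ^ a) • ((σ * σ) • ((σ * σ) • y - y) - (((q : ℕ) : ℤ) ^ 2) • ((σ * σ) • y - y)) = 0

/-- (B2new) in the form consumed by the top. -/
theorem B2newStatement.kill {N q p : ℕ} [NeZero N] [NeZero q] {a : ℕ}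
    {A : ValuationSubring (AlgebraicClosure ℚ)} {σ : Γ}
    (h : ∀ (n : ℕ) (y : JZero (N * q)), (p ^ n) • y = 0 → QNew N q y →
      (p ^ a) • ((σ * σ) • ((σ * σ) • y - y) - (((q : ℕ) : ℤ) ^ 2) • ((σ * σ) • y - y)) = 0)
    (_hA : A.LiesOverPrime q) (n : ℕ) (y : JZero (N * q)) (hy : (p ^ n) • y = 0)
    (hnew : QNew N q y) :
    (p ^ a) • (Bop σ ((q : ℕ) : ℤ) (Bop σ ((q : ℕ) : ℤ) y) - ((((q : ℕ) : ℤ) + 1) ^ 2) • y) = 0 := by
  rw [Bop_Bop_sub, smul_comm (p ^ a) σ⁻¹, smul_comm (p ^ a) σ⁻¹, h n y hy hnew, smul_zero,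
    smul_zero]

end Fermat.Agent.S35.H90
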