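/-
S35 (helper90), TOP, ROUTE (b) (lead row 2817): the conclusion of the frozen S35 from
`KeyBStatement λ M S χ q` at the primes `q ∥ M`, `q ≠ λ` — the key statement of `Top.lean` asked
only on `AJSpan M (λ ^ n)`, the Galois translates of the classes `z ∈ J₀(M)(ℚ̄)` that are
Kummer-related (`S42.H96.Rel`) to integral parabolic homomorphisms modulo `λ ^ n`.
No surjectivity of the Abel–Jacobi relation is needed.

* `s35_of_keyB`          : the top;
* `NewProjBStatement`    : (NEWPROJ) on `AJSpan`: some `r = (r₁, r₂)` in the ring of Hecke pairs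
                           with `χ r₂ ≠ 0` maps `AJSpan (N q) (p ^ n)` into the `q`-new part;
* `keyB_of_newProj_b2new`: `NewProjBStatement` + `B2newStatement` ⟹ `KeyBStatement` at `M = N q`;
* `rel_torsion'`, `AJSpan_torsion` : elements of `AJSpan N m` are killed by `m`.
-/
import Fermat.Statements.S35
import Fermat.Agent.S30.H90.Rho
import Fermat.Agent.S37.H77.CoreFree
import Fermat.Agent.S31.H94.Stable
import Fermat.Agent.S31.H75.HALeaf
import Fermat.Agent.S35.H90.InstB
import Fermat.Agent.S35.H90.B2new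

set_option autoImplicit false
open Polynomial
open CuspForm
open ModularCurve

namespace Fermat.Agent.S35.H90

open Fermat.Agent.S30.H86 (Rr)

local notation "Γ" => (AlgebraicClosure ℚ ≃ₐ[ℚ] AlgebraicClosure ℚ)

/-- **The key statement at a prime `q`, route (b)**: as `KeyStatement`, on the Galois translates
of the classes Kummer-related to the integral lattice only (`AJSpan M (p ^ n)`). -/
def KeyBStatement (p M : ℕ) [NeZero M] (S : Finset ℕ) {R : Type} [CommRing R]
    (χ : CuspForm.heckeAlgebra M 2 (↑S : Set ℕ) →+* R) (q : ℕ) : Prop :=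
  ∃ r ∈ Rr (TJ M S) (TH M S), ∃ a : ℕ, χ r.2 ≠ 0 ∧
    ∀ A : ValuationSubring (AlgebraicClosure ℚ), A.LiesOverPrime q →
      ∀ σ : Γ, A.IsFrobeniusAt σ q →
        ∀ (n : ℕ), ∀ x ∈ AJSpan M (p ^ n),
          (p ^ a) • (Bop σ ((q : ℕ) : ℤ) (Bop σ ((q : ℕ) : ℤ) (r.1 x))
            - ((((q : ℕ) : ℤ) + 1) ^ 2) • r.1 x) = 0

/-- **S35 from the key statement, route (b)** (the conclusion is verbatim that of the frozen
S35). -/
theorem s35_of_keyB
    {M : ℕ} [NeZero M]
    (lam : ℕ) [Fact lam.Prime]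
    (S : Finset ℕ)
    (O' : Type) [CommRing O'] [IsDomain O'] [IsDiscreteValuationRing O']
    [IsAdicComplete (IsLocalRing.maximalIdeal O') O'] [Finite (IsLocalRing.ResidueField O')]
    [CharZero O'] (hlamO' : (lam : O') ∈ IsLocalRing.maximalIdeal O')
    (chig : CuspForm.heckeAlgebra M 2 (↑S : Set ℕ) →+* ℂ)
    (iota : chig.range →+* O')
    (hlamS : lam ∈ S)
    (hKey : ∀ q : ℕ, q.Prime → q ≠ lam → q ∣ M → ¬ q ^ 2 ∣ M →
      KeyBStatement lam M S (iota.comp chig.rangeRestrict) q) :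
    ∃ (O'' : Type) (_ : CommRing O'') (_ : IsDomain O'') (_ : IsDiscreteValuationRing O'')
      (_ : IsAdicComplete (IsLocalRing.maximalIdeal O'') O'') (_ : Finite (IsLocalRing.ResidueField O''))
      (_ : CharZero O'') (_ : Algebra O' O'') (_ : Module.Finite O' O'') (_ : IsLocalHom (algebraMap O' O'')),
      Function.Injective (algebraMap O' O'') ∧
      ∃ ρ : GaloisRepAdic O'',
        (∀ (ℓ : ℕ) (hℓ : ℓ.Prime) (hℓM : ¬ ℓ ∣ M) (hℓS : ℓ ∉ (↑S : Set ℕ)),
          ∀ A : ValuationSubring (AlgebraicClosure ℚ), A.LiesOverPrime ℓ →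
            ∀ σ : AlgebraicClosure ℚ ≃ₐ[ℚ] AlgebraicClosure ℚ, A.IsFrobeniusAt σ ℓ →
              LinearMap.charpoly (ρ.ρ σ) =
                X ^ 2 - C (algebraMap O' O'' ((iota.comp chig.rangeRestrict) (CuspForm.heckeAlgebra.T hℓ hℓM hℓS))) * X
                  + C ((ℓ : O''))) ∧
        (∀ q : ℕ, q.Prime → q ≠ lam → q ∣ M → ¬ q ^ 2 ∣ M →
          ∀ A : ValuationSubring (AlgebraicClosure ℚ), A.LiesOverPrime q →
            ∀ σ : AlgebraicClosure ℚ ≃ₐ[ℚ] AlgebraicClosure ℚ, A.IsFrobeniusAt σ q →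
              LinearMap.charpoly (ρ.ρ σ) = X ^ 2 - C ((q : O'') + 1) * X + C ((q : O'')) ∨
              LinearMap.charpoly (ρ.ρ σ) = X ^ 2 + C ((q : O'') + 1) * X + C ((q : O''))) := by
  have hp' : lam.Prime := Fact.out
  obtain ⟨t, h1, h2, h3, h4, h5, h6, -, h8, h9, h10⟩ :=
    tr35B_of_leaves (iota.comp chig.rangeRestrict)
      (Fermat.Agent.S37.H77.core_free M lam) (Fermat.Agent.S31.H94.stableLeaf M lam)
      (Fermat.Agent.S31.H75.haLeaf M lam hp' S) hp' hlamO' hlamS
  obtain ⟨ρ, hchar, -⟩ :=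
    Fermat.Agent.S30.H90.exists_galoisRepAdic_of_pseudoTrace t h1 h2 h3 h4 h5 h8
  refine ⟨O', inferInstance, inferInstance, inferInstance, inferInstance, inferInstance,
    inferInstance, Algebra.id O', inferInstance, ?_, Function.injective_id, ρ, ?_, ?_⟩
  · rw [Algebra.algebraMap_self]
    exact isLocalHom_id O'
  · intro ℓ hℓ hℓM hℓS A hA σ hσ
    obtain ⟨e1, e2⟩ := h6 ℓ hℓ hℓM hℓS A hA σ hσ
    rw [hchar σ (ℓ : O') e2, e1, Algebra.algebraMap_self, RingHom.id_apply]
  · intro q hq hqlam hqM hq2 A hA σ hσ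
    obtain ⟨r, hr, a, hχ, hkill⟩ := hKey q hq hqlam hqM hq2
    have hdet := h9 q hq hqlam A hA σ hσ
    have hsq := h10 q hq hqlam A hA σ hσ r hr a (hkill A hA σ hσ)
    have hlam0 : (lam : O') ≠ 0 := Nat.cast_ne_zero.mpr hp'.ne_zero
    have hsq' : t σ ^ 2 - ((q : O') + 1) ^ 2 = 0 := by
      rcases mul_eq_zero.mp hsq with h | h
      · rcases mul_eq_zero.mp h with h | h
        · exact absurd (pow_eq_zero_iff (fun h0 : a = 0 => by
            rw [h0, pow_zero] at h; exact one_ne_zero h) |>.mp h) hlam0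
        · exact absurd h hχ
      · exact h
    have hfac : (t σ - ((q : O') + 1)) * (t σ + ((q : O') + 1)) = 0 := by
      linear_combination hsq'
    rcases mul_eq_zero.mp hfac with h | h
    · left
      rw [hchar σ (q : O') hdet, sub_eq_zero.mp h]
    · right
      have e1 : t σ = -((q : O') + 1) := eq_neg_of_add_eq_zero_left h
      rw [hchar σ (q : O') hdet, e1, map_neg, neg_mul, sub_neg_eq_add]

/-- Elements of `AJSpan N m` are killed by `m`. -/
theorem AJSpan_torsion {N m : ℕ} [NeZero N] {x : JZero N} (hx : x ∈ AJSpan N m) : m • x = 0 := by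
  obtain ⟨g, ψ, z, hz, rfl⟩ := hx
  rw [smul_comm, Fermat.Agent.S42.H96.rel_torsion hz]
  exact smul_zero (A := JZero N) g

/-- **(NEWPROJ), route (b)**: an element `r = (r₁, r₂)` of the ring generated by the Hecke pairs
of level `N q` with `χ r₂ ≠ 0` whose first component maps `AJSpan (N q) (p ^ n)` into the
`q`-new part, for every `n`. -/
def NewProjBStatement (p N q : ℕ) [NeZero N] [NeZero q] (S : Finset ℕ) {R : Type} [CommRing R]
    (χ : CuspForm.heckeAlgebra (N * q) 2 (↑S : Set ℕ) →+* R) : Prop :=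
  ∃ r ∈ Rr (TJ (N * q) S) (TH (N * q) S), χ r.2 ≠ 0 ∧
    ∀ (n : ℕ), ∀ x ∈ AJSpan (N * q) (p ^ n), QNew N q (r.1 x)

/-- **(NEWPROJ) + (B2new) ⟹ the key statement** at level `M = N q`. -/
theorem keyB_of_newProj_b2new {p N q : ℕ} [NeZero N] [NeZero q] {S : Finset ℕ} {R : Type}
    [CommRing R] {χ : CuspForm.heckeAlgebra (N * q) 2 (↑S : Set ℕ) →+* R}
    (hNP : NewProjBStatement p N q S χ) (hB : B2newStatement N q p) :
    KeyBStatement p (N * q) S χ q := by
  obtain ⟨r, hr, hχ, hnew⟩ := hNP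
  obtain ⟨a, ha⟩ := hB
  refine ⟨r, hr, a, hχ, fun A hA σ hσ n x hx => ?_⟩
  refine B2newStatement.kill (ha A hA σ hσ) hA n (r.1 x) ?_ (hnew n x hx)
  rw [← map_nsmul, AJSpan_torsion hx, map_zero]

end Fermat.Agent.S35.H90
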